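import Fermat.Agent.MoebiusTheta.Lines
import Fermat.Agent.DavenportMoebius.Corollaries

/-!
# `∑ μ n / n = 0`

The series converges by Davenport's theorem, and Abel's theorem for Dirichlet series with the
value `0` of `1 / ζ` at `1` gives its sum.
-/

set_option autoImplicit false

noncomputable section

namespace FA.MoebiusTheta

open Complex Filter Topology Finset
open scoped Real ArithmeticFunction.Moebius

theorem weight_nonneg {ε : ℝ} (hε : 0 ≤ ε) (n : ℕ) :
    0 ≤ ((n : ℝ) + 1) ^ (-ε) - ((n : ℝ) + 2) ^ (-ε) :=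
  sub_nonneg.2 (Real.rpow_le_rpow_of_nonpos (by positivity) (by linarith) (by linarith))

/-- **Abel's limit theorem for Dirichlet series.** -/
theorem tendsto_abel {c : ℕ → ℝ} {l : ℝ} {g : ℝ → ℝ}
    (hc : Tendsto (fun N : ℕ => ∑ k ∈ range N, c k) atTop (𝓝 l))
    (hg : ∀ ε : ℝ, 0 < ε → HasSum (fun k : ℕ => c k * ((k : ℝ) + 1) ^ (-ε)) (g ε)) :
    Tendsto g (𝓝[>] 0) (𝓝 l) := by
  obtain ⟨S, hS⟩ : ∃ S : ℕ → ℝ, S = fun N => ∑ k ∈ range N, c k := ⟨_, rfl⟩
  have hparts : ∀ (ε : ℝ) (N : ℕ), ∑ k ∈ range N, c k * ((k : ℝ) + 1) ^ (-ε) - l =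
      ∑ k ∈ range N, (S (k + 1) - l) * (((k : ℝ) + 1) ^ (-ε) - ((k : ℝ) + 2) ^ (-ε)) +
        (S N - l) * ((N : ℝ) + 1) ^ (-ε) := by
    intro ε N
    induction N with
    | zero => simp [hS]
    | succ N ih =>
      have e : S (N + 1) = S N + c N := by rw [hS]; exact sum_range_succ _ _
      have e2 : ((N + 1 : ℕ) : ℝ) + 1 = (N : ℝ) + 2 := by push_cast; ring
      rw [sum_range_succ, sum_range_succ _ N, e, e2]
      linear_combination ih
  rw [Metric.tendsto_nhds]
  intro η hη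
  have hc' : Tendsto S atTop (𝓝 l) := hS ▸ hc
  obtain ⟨M, hM⟩ := eventually_atTop.1 (Metric.tendsto_nhds.1 hc' (η / 3) (by linarith))
  obtain ⟨H, hH⟩ : ∃ H : ℝ, H = ∑ k ∈ range M, |S (k + 1) - l| := ⟨_, rfl⟩
  have hsmall : ∀ᶠ ε : ℝ in 𝓝[>] 0, H * (1 - ((M : ℝ) + 1) ^ (-ε)) < η / 3 := by
    have hc : ContinuousAt (fun ε : ℝ => H * (1 - ((M : ℝ) + 1) ^ (-ε))) 0 :=
      continuousAt_const.mul (continuousAt_const.sub ((Real.continuousAt_const_rpow
        (show ((M : ℝ) + 1) ≠ 0 by positivity)).comp continuousAt_neg))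
    have h := hc.tendsto.mono_left (nhdsWithin_le_nhds (s := Set.Ioi (0 : ℝ)))
    simp at h
    exact h.eventually (eventually_lt_nhds (by linarith))
  filter_upwards [hsmall, self_mem_nhdsWithin] with ε hsm (hε : 0 < ε)
  rw [Real.dist_eq]
  have hbound : ∀ N, M ≤ N → |∑ k ∈ range N, c k * ((k : ℝ) + 1) ^ (-ε) - l| ≤
      H * (1 - ((M : ℝ) + 1) ^ (-ε)) + η / 3 := by
    intro N hN
    obtain ⟨w, hw⟩ : ∃ w : ℕ → ℝ,
        w = fun k : ℕ => ((k : ℝ) + 1) ^ (-ε) - ((k : ℝ) + 2) ^ (-ε) := ⟨_, rfl⟩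
    have hw0 : ∀ k, 0 ≤ w k := fun k => hw ▸ weight_nonneg hε.le k
    have htel : ∀ K : ℕ, ∑ k ∈ range K, w k = 1 - ((K : ℝ) + 1) ^ (-ε) := by
      intro K
      induction K with
      | zero => simp
      | succ K ih => rw [sum_range_succ, ih, hw]; push_cast; ring_nf
    have hhead : ∑ k ∈ range M, |(S (k + 1) - l) * w k| ≤ H * (1 - ((M : ℝ) + 1) ^ (-ε)) := by
      rw [hH, ← htel, sum_mul]
      refine sum_le_sum fun k hk => ?_
      rw [abs_mul, abs_of_nonneg (hw0 k)]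
      exact mul_le_mul_of_nonneg_left (single_le_sum (fun i _ => hw0 i) hk) (abs_nonneg _)
    have hlast := hM N hN
    rw [Real.dist_eq] at hlast
    have htail : ∑ k ∈ Ico M N, |(S (k + 1) - l) * w k| ≤
        η / 3 * (((M : ℝ) + 1) ^ (-ε) - ((N : ℝ) + 1) ^ (-ε)) := by
      calc ∑ k ∈ Ico M N, |(S (k + 1) - l) * w k| ≤ ∑ k ∈ Ico M N, η / 3 * w k := by
            refine sum_le_sum fun k hk => ?_
            rw [abs_mul, abs_of_nonneg (hw0 k)]
            refine mul_le_mul_of_nonneg_right ?_ (hw0 k)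
            have := hM (k + 1) (by rw [mem_Ico] at hk; omega)
            rw [Real.dist_eq] at this
            exact this.le
        _ = _ := by rw [← mul_sum, sum_Ico_eq_sub _ hN, htel, htel]; ring
    rw [hparts]
    refine (abs_add_le _ _).trans ?_
    rw [abs_mul (S N - l), abs_of_pos (Real.rpow_pos_of_pos (by positivity) _)]
    have hM1 : ((M : ℝ) + 1) ^ (-ε) ≤ 1 :=
      Real.rpow_le_one_of_one_le_of_nonpos (by linarith [(Nat.cast_nonneg M : (0 : ℝ) ≤ M)])
        (by linarith)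
    have hN1 : (0 : ℝ) < ((N : ℝ) + 1) ^ (-ε) := Real.rpow_pos_of_pos (by positivity) _
    calc |∑ k ∈ range N, (S (k + 1) - l) * (((k : ℝ) + 1) ^ (-ε) - ((k : ℝ) + 2) ^ (-ε))| +
          |S N - l| * ((N : ℝ) + 1) ^ (-ε)
        ≤ (∑ k ∈ range M, |(S (k + 1) - l) * w k| + ∑ k ∈ Ico M N, |(S (k + 1) - l) * w k|) +
            η / 3 * ((N : ℝ) + 1) ^ (-ε) := by
          refine add_le_add ?_ (mul_le_mul_of_nonneg_right hlast.le hN1.le)
          rw [sum_range_add_sum_Ico _ hN]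
          refine (abs_sum_le_sum_abs _ _).trans (le_of_eq (by rw [hw]))
      _ ≤ H * (1 - ((M : ℝ) + 1) ^ (-ε)) + η / 3 := by nlinarith
  have hlim := ((hg ε hε).tendsto_sum_nat.sub_const l).abs
  have := le_of_tendsto hlim (eventually_atTop.2 ⟨M, hbound⟩)
  linarith

/-- **`∑ μ n / n = 0`.** -/
theorem tendsto_moebius_harmonic :
    Tendsto (fun N : ℕ => ∑ n ∈ Icc 1 N, (μ n : ℝ) / n) atTop (𝓝 0) := by
  obtain ⟨z, hz⟩ := FA.DavenportMoebius.exists_tendsto_series 0
  have hre := (Complex.continuous_re.tendsto z).comp hz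
  have hser : Tendsto (fun N : ℕ => ∑ n ∈ Icc 1 N, (μ n : ℝ) / n) atTop (𝓝 z.re) := by
    refine hre.congr fun N => ?_
    simp [FA.ThreePrimes.eAdd, Complex.re_sum, Complex.div_natCast_re]
  suffices z.re = 0 by rwa [this] at hser
  have hc : Tendsto (fun N : ℕ => ∑ k ∈ range N, (μ (k + 1) : ℝ) / ((k : ℝ) + 1)) atTop
      (𝓝 z.re) := by
    refine hser.congr fun N => ?_
    rw [range_eq_Ico, show Icc 1 N = Ico (0 + 1) (N + 1) by ext; simp, sum_Ico_eq_sum_range,
      sum_Ico_eq_sum_range]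
    simp [add_comm]
  have hg : ∀ ε : ℝ, 0 < ε → HasSum
      (fun k : ℕ => (μ (k + 1) : ℝ) / ((k : ℝ) + 1) * ((k : ℝ) + 1) ^ (-ε))
      (FA.VonKoch.invZeta ((1 + ε : ℝ) : ℂ)).re := by
    intro ε hε
    obtain ⟨hsum, he⟩ := FA.VonKoch.moebius_series (s := ((1 + ε : ℝ) : ℂ)) (by simpa using hε)
    have h := Complex.hasSum_re ((hasSum_nat_add_iff' 1).2 hsum.hasSum)
    rw [sum_range_one, LSeries.term_zero, sub_zero, ← LSeries, he] at h
    refine h.congr_fun fun k => ?_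
    rw [LSeries.term_of_ne_zero (Nat.succ_ne_zero k), ← ofReal_natCast,
      ← ofReal_cpow (Nat.cast_nonneg _), ← ofReal_intCast, ← ofReal_div, ofReal_re,
      Real.rpow_add (by positivity), Real.rpow_one, Real.rpow_neg (by positivity)]
    push_cast
    field_simp
  have h0 : Tendsto (fun ε : ℝ => (FA.VonKoch.invZeta ((1 + ε : ℝ) : ℂ)).re) (𝓝[>] 0) (𝓝 0) := by
    have h1 : riemannZeta₁ (1 : ℂ) ≠ 0 := by rw [riemannZeta₁_one]; exact one_ne_zero
    have hcont : ContinuousAt (fun ε : ℝ => (FA.VonKoch.invZeta ((1 + ε : ℝ) : ℂ)).re) 0 :=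
      Complex.continuous_re.continuousAt.comp (ContinuousAt.comp' (g := FA.VonKoch.invZeta)
        (by simpa using (FA.VonKoch.differentiableAt_invZeta h1).continuousAt) (by fun_prop))
    simpa [FA.VonKoch.invZeta] using hcont.tendsto.mono_left nhdsWithin_le_nhds
  exact tendsto_nhds_unique (tendsto_abel hc hg) h0

/-- The series of `thetaSum` in its classical form. -/
theorem tendsto_theta_classical (a : ℝ) :
    Tendsto (fun N : ℕ => ∑ n ∈ Icc 1 N, (μ n : ℝ) / n * Real.exp (-(a / n) ^ 2)) atTop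
      (𝓝 (thetaSum a)) := by
  have h := ((summable_thetaTerm a).hasSum.tendsto_sum_nat.comp
    (tendsto_add_atTop_nat 1)).add tendsto_moebius_harmonic
  rw [add_zero] at h
  refine h.congr fun N => ?_
  rw [Function.comp_apply, sum_range_eq_add_Ico _ (by omega),
    show Icc 1 N = Ico 1 (N + 1) by ext; simp, show thetaTerm a 0 = 0 by simp [thetaTerm],
    zero_add, ← sum_add_distrib]
  exact sum_congr rfl fun n _ => by rw [thetaTerm]; ring

end FA.MoebiusTheta

end
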