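import Fermat.Agent.HardyZeros.Decay
import Mathlib.Analysis.MellinInversion

/-!
# The kernel `Γ` left of the imaginary axis

`‖Γ (u + iy)‖ ≤ C (1 + |y|) e^(-π |y| / 2) / ‖u + iy‖` for `-1/2 ≤ u ≤ 1/4`, and the inversion of
the Mellin transform `Γ s` of `e^(-t) - 1` on `re s = -1/2`.
-/

set_option autoImplicit false

noncomputable section

namespace FA.MoebiusTheta

open Complex MeasureTheory Filter Topology Set Asymptotics
open scoped Real

/-- `|Γ (x + iy)| / Γ x` decreases in `x`. -/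
theorem norm_Gamma_ratio_le {x c : ℝ} (hx : 0 < x) (hxc : x < c) (y : ℝ) :
    ‖Complex.Gamma ((x : ℂ) + y * I)‖ * Real.Gamma c ≤
      Real.Gamma x * ‖Complex.Gamma ((c : ℂ) + y * I)‖ := by
  obtain ⟨t, ht⟩ : ∃ t, t = c - x := ⟨_, rfl⟩
  have ht0 : 0 < t := by linarith
  obtain ⟨B, hB⟩ : ∃ B : ℝ, B = ∫ v : ℝ in (0 : ℝ)..1, v ^ (x - 1) * (1 - v) ^ (t - 1) :=
    ⟨_, rfl⟩
  have hreal : Complex.betaIntegral (x : ℂ) (t : ℂ) = (B : ℂ) := by
    rw [hB, Complex.betaIntegral, ← intervalIntegral.integral_ofReal]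
    refine intervalIntegral.integral_congr_uIoo fun v hv => ?_
    rw [Set.uIoo_of_le zero_le_one] at hv
    rw [ofReal_mul, ofReal_cpow hv.1.le, ofReal_cpow (by linarith [hv.2] : (0 : ℝ) ≤ 1 - v)]
    push_cast
    rfl
  have h1 : Real.Gamma x * Real.Gamma t = Real.Gamma c * B := by
    have h := Complex.Gamma_mul_Gamma_eq_betaIntegral (s := (x : ℂ)) (t := (t : ℂ))
      (by simpa using hx) (by simpa using ht0)
    rw [hreal, ← ofReal_add, show x + t = c by linarith, Complex.Gamma_ofReal, Complex.Gamma_ofReal,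
      Complex.Gamma_ofReal] at h
    exact_mod_cast h
  have h2 := congrArg (fun z : ℂ => ‖z‖) (Complex.Gamma_mul_Gamma_eq_betaIntegral
    (s := (x : ℂ) + y * I) (t := (t : ℂ)) (by simp [hx]) (by simpa using ht0))
  simp only [norm_mul] at h2
  rw [show (x : ℂ) + y * I + t = ((c : ℂ) + y * I) by rw [ht]; push_cast; ring,
    Complex.Gamma_ofReal, norm_real, Real.norm_of_nonneg (Real.Gamma_pos_of_pos ht0).le] at h2
  have h3 : ‖Complex.betaIntegral ((x : ℂ) + y * I) (t : ℂ)‖ ≤ B := by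
    refine (FA.HardyZeros.norm_betaIntegral_le _ _).trans (le_of_eq ?_)
    simp [hB]
  have hc := Real.Gamma_pos_of_pos (hx.trans hxc)
  refine le_of_mul_le_mul_right ?_ (Real.Gamma_pos_of_pos ht0)
  calc ‖Complex.Gamma ((x : ℂ) + y * I)‖ * Real.Gamma c * Real.Gamma t
      = ‖Complex.Gamma ((c : ℂ) + y * I)‖ * ‖Complex.betaIntegral ((x : ℂ) + y * I) (t : ℂ)‖ *
          Real.Gamma c := by rw [← h2]; ring
    _ ≤ ‖Complex.Gamma ((c : ℂ) + y * I)‖ * B * Real.Gamma c := by gcongr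
    _ = _ := by rw [mul_right_comm (Real.Gamma x), h1]; ring

/-- The decay on the strip. -/
theorem exists_norm_Gamma_le : ∃ C, 0 ≤ C ∧ ∀ u y : ℝ, -(1 / 2) ≤ u → u ≤ 1 / 4 →
    (u : ℂ) + y * I ≠ 0 →
      ‖Complex.Gamma ((u : ℂ) + y * I)‖ ≤
        C * (1 + |y|) * Real.exp (-(π * |y| / 2)) / ‖(u : ℂ) + y * I‖ := by
  obtain ⟨M, hM, hG⟩ : ∃ M, 0 ≤ M ∧ ∀ x ∈ Icc (1 / 2 : ℝ) (5 / 4), Real.Gamma x ≤ M := by
    refine ⟨max (Real.Gamma (1 / 2)) (Real.Gamma (5 / 4)),
      le_max_of_le_left (Real.Gamma_nonneg_of_nonneg (by norm_num)), fun x hx => ?_⟩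
    exact Real.convexOn_Gamma.le_max_of_mem_Icc (by norm_num) (by norm_num) hx
  have hc : 0 < Real.Gamma (3 / 2) := Real.Gamma_pos_of_pos (by norm_num)
  refine ⟨M * 3 / Real.Gamma (3 / 2), by positivity, fun u y hu hu2 hne => ?_⟩
  have hhalf : ((1 / 2 : ℝ) : ℂ) + y * I ≠ 0 := fun h => by
    have := congrArg Complex.re h
    simp at this
  have h32 : ‖Complex.Gamma (((3 / 2 : ℝ) : ℂ) + y * I)‖ ≤
      (1 + |y|) * (3 * Real.exp (-(π * |y| / 2))) := by
    rw [show ((3 / 2 : ℝ) : ℂ) + y * I = ((1 / 2 : ℝ) : ℂ) + y * I + 1 by push_cast; ring,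
      Complex.Gamma_add_one _ hhalf, norm_mul]
    refine mul_le_mul ?_ ?_ (norm_nonneg _) (by positivity)
    · refine (norm_add_le _ _).trans ?_
      rw [norm_mul, norm_I, mul_one, norm_real, norm_real, Real.norm_eq_abs, Real.norm_eq_abs]
      rw [abs_of_pos (by norm_num : (0 : ℝ) < 1 / 2)]
      linarith
    · rw [show ((1 / 2 : ℝ) : ℂ) = 1 / 2 by push_cast; rfl]
      exact FA.HardyZeros.norm_Gamma_half_le y
  have hshift : Complex.Gamma ((u : ℂ) + y * I) * ((u : ℂ) + y * I) =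
      Complex.Gamma (((u + 1 : ℝ) : ℂ) + y * I) := by
    rw [show (((u + 1 : ℝ) : ℂ) + y * I) = (u : ℂ) + y * I + 1 by push_cast; ring,
      Complex.Gamma_add_one _ hne]
    ring
  have hmain := norm_Gamma_ratio_le (show 0 < u + 1 by linarith) (show u + 1 < 3 / 2 by linarith) y
  rw [le_div_iff₀ (norm_pos_iff.2 hne), ← norm_mul, hshift, div_mul_eq_mul_div, div_mul_eq_mul_div,
    le_div_iff₀ hc]
  refine hmain.trans ?_
  calc Real.Gamma (u + 1) * ‖Complex.Gamma (((3 / 2 : ℝ) : ℂ) + y * I)‖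
      ≤ M * ((1 + |y|) * (3 * Real.exp (-(π * |y| / 2)))) :=
        mul_le_mul (hG _ ⟨by linarith, by linarith⟩) h32 (norm_nonneg _) hM
    _ = _ := by ring

/-- `(1 + x) exp (-x) ≤ 6 / (1 + x²)`. -/
theorem one_add_mul_exp_le {x : ℝ} (hx : 0 ≤ x) :
    (1 + x) * Real.exp (-x) ≤ 6 * (1 + x ^ 2)⁻¹ := by
  have h := Real.sum_le_exp_of_nonneg hx 4
  simp [Finset.sum_range_succ, Nat.factorial] at h
  rw [Real.exp_neg, ← div_eq_mul_inv, div_le_iff₀ (Real.exp_pos x), mul_right_comm,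
    ← div_eq_mul_inv, le_div_iff₀ (by positivity)]
  nlinarith

theorem exists_norm_Gamma_line_le : ∃ C, 0 ≤ C ∧ ∀ y : ℝ,
    ‖Complex.Gamma (((-(1 / 2) : ℝ) : ℂ) + y * I)‖ ≤ C * (1 + y ^ 2)⁻¹ := by
  obtain ⟨C, hC, h⟩ := exists_norm_Gamma_le
  refine ⟨C * 2 * 6, by positivity, fun y => ?_⟩
  have hn : (1 / 2 : ℝ) ≤ ‖((-(1 / 2) : ℝ) : ℂ) + y * I‖ := by
    refine le_trans (le_of_eq ?_) (abs_re_le_norm (((-(1 / 2) : ℝ) : ℂ) + y * I))
    simp
  refine (h _ y le_rfl (by norm_num) (norm_pos_iff.1 (by linarith))).trans ?_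
  refine (div_le_div_of_nonneg_left (by positivity) (by norm_num) hn).trans ?_
  have he : Real.exp (-(π * |y| / 2)) ≤ Real.exp (-|y|) :=
    Real.exp_le_exp.2 (by nlinarith [Real.two_le_pi, abs_nonneg y])
  have h6 := one_add_mul_exp_le (abs_nonneg y)
  rw [sq_abs] at h6
  calc C * (1 + |y|) * Real.exp (-(π * |y| / 2)) / (1 / 2)
      ≤ C * 2 * ((1 + |y|) * Real.exp (-|y|)) := by
        rw [div_div_eq_mul_div, div_one]
        nlinarith [mul_le_mul_of_nonneg_left he (show 0 ≤ C * (1 + |y|) by positivity)]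
    _ ≤ C * 2 * (6 * (1 + y ^ 2)⁻¹) := mul_le_mul_of_nonneg_left h6 (by positivity)
    _ = _ := by ring

/-- `e^(-t) - 1`. -/
def expDefect (t : ℝ) : ℂ := ((Real.exp (-t) - 1 : ℝ) : ℂ)

theorem norm_expDefect_le {t : ℝ} (ht : 0 ≤ t) : ‖expDefect t‖ ≤ t ∧ ‖expDefect t‖ ≤ 1 := by
  rw [expDefect, norm_real, Real.norm_eq_abs,
    abs_of_nonpos (by linarith [Real.exp_le_one_iff.2 (neg_nonpos.2 ht)])]
  exact ⟨by linarith [Real.add_one_le_exp (-t)], by linarith [Real.exp_pos (-t)]⟩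

theorem mellinConvergent_expDefect {s : ℂ} (h0 : -1 < s.re) (h1 : s.re < 0) :
    MellinConvergent expDefect s := by
  refine mellinConvergent_of_isBigO_rpow (a := 0) (b := -1) ?_ ?_ h1 ?_ h0
  · exact (Complex.continuous_ofReal.comp (by fun_prop)).continuousOn.locallyIntegrableOn
      measurableSet_Ioi
  · refine IsBigO.of_bound 1 ((eventually_ge_atTop (0 : ℝ)).mono fun t ht => ?_)
    simpa using (norm_expDefect_le ht).2
  · refine IsBigO.of_bound 1 ?_
    filter_upwards [self_mem_nhdsWithin] with t (ht : 0 < t)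
    simpa [abs_of_pos ht] using (norm_expDefect_le ht.le).1

theorem mellin_expDefect {s : ℂ} (h0 : -1 < s.re) (h1 : s.re < 0) :
    mellin expDefect s = Complex.Gamma s := by
  have hs : s ≠ 0 := fun h => by simp [h] at h1
  have hs1 : 0 < (s + 1).re := by simp; linarith
  obtain ⟨F, hF⟩ : ∃ F : ℝ → ℂ, F = fun t => expDefect t * ((t : ℂ) ^ s / s) := ⟨_, rfl⟩
  obtain ⟨G, hG⟩ : ∃ G : ℝ → ℂ,
      G = fun t : ℝ => ((-t : ℝ) : ℂ).exp * (t : ℂ) ^ ((s + 1) - 1) := ⟨_, rfl⟩
  have hGi : IntegrableOn G (Ioi 0) := by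
    rw [hG]
    refine (Complex.GammaIntegral_convergent hs1).congr_fun (fun t _ => ?_) measurableSet_Ioi
    push_cast
    rfl
  have hfi : IntegrableOn (fun t : ℝ => (t : ℂ) ^ (s - 1) • expDefect t) (Ioi 0) :=
    mellinConvergent_expDefect h0 h1
  have hnormF : ∀ t : ℝ, 0 < t → ‖F t‖ = ‖expDefect t‖ * (t ^ s.re / ‖s‖) := fun t ht => by
    rw [hF, norm_mul, norm_div, norm_cpow_eq_rpow_re_of_pos ht]
  have hcont : ContinuousWithinAt F (Ici 0) 0 := by
    have hF0 : F 0 = 0 := by simp [hF, hs]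
    refine continuousWithinAt_Ioi_iff_Ici.1 ?_
    rw [ContinuousWithinAt, hF0]
    refine squeeze_zero_norm' ?_ (a := fun t : ℝ => t ^ (s.re + 1) / ‖s‖) ?_
    · filter_upwards [self_mem_nhdsWithin] with t (ht : 0 < t)
      rw [hnormF t ht, Real.rpow_add_one ht.ne', mul_comm (t ^ s.re) t, mul_div_assoc]
      exact mul_le_mul_of_nonneg_right (norm_expDefect_le ht.le).1 (by positivity)
    · have := ((Real.continuousAt_rpow_const (0 : ℝ) (s.re + 1) (Or.inr (by linarith))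
        ).tendsto.div_const ‖s‖).mono_left (nhdsWithin_le_nhds (s := Ioi (0 : ℝ)))
      simpa [Real.zero_rpow (show s.re + 1 ≠ 0 by linarith)] using this
  have htop : Tendsto F atTop (𝓝 0) := by
    refine squeeze_zero_norm' ?_ (a := fun t : ℝ => t ^ s.re / ‖s‖)
      (by simpa using (tendsto_rpow_neg_atTop (neg_pos.2 h1)).div_const ‖s‖)
    filter_upwards [eventually_gt_atTop (0 : ℝ)] with t ht
    rw [hnormF t ht]
    exact mul_le_of_le_one_left (by positivity) (norm_expDefect_le ht.le).2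
  have hder : ∀ t ∈ Ioi (0 : ℝ), HasDerivAt F
      ((t : ℂ) ^ (s - 1) • expDefect t - G t / s) t := by
    intro t (ht : 0 < t)
    have e1 : HasDerivAt expDefect (-((-t : ℝ) : ℂ).exp) t := by
      have := (((hasDerivAt_id t).neg.exp).sub_const 1).ofReal_comp
      exact this.congr_deriv (by simp [Complex.ofReal_exp])
    have e2 : HasDerivAt (fun x : ℝ => (x : ℂ) ^ s / s) ((t : ℂ) ^ (s - 1)) t := by
      exact ((hasDerivAt_ofReal_cpow_const ht.ne' hs).div_const s).congr_deriv (by field_simp)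
    rw [hF]
    refine (e1.fun_mul e2).congr_deriv ?_
    rw [hG, smul_eq_mul, add_sub_cancel_right]
    ring
  have h := integral_Ioi_of_hasDerivAt_of_tendsto hcont hder (hfi.sub (hGi.div_const s)) htop
  rw [show F 0 = 0 by simp [hF, hs], sub_zero,
    integral_sub hfi (hGi.div_const s), integral_div, sub_eq_zero] at h
  rw [mellin, h, hG, eq_comm, eq_div_iff hs, mul_comm, ← Complex.Gamma_add_one s hs,
    Complex.Gamma_eq_integral hs1, Complex.GammaIntegral]
  exact setIntegral_congr_fun measurableSet_Ioi fun t _ => by push_cast; rfl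

theorem verticalIntegrable_mellin :
    VerticalIntegrable (mellin expDefect) (-(1 / 2)) := by
  obtain ⟨C, -, hC⟩ := exists_norm_Gamma_line_le
  have e : ∀ y : ℝ, mellin expDefect (((-(1 / 2) : ℝ) : ℂ) + y * I) =
      Complex.Gamma (((-(1 / 2) : ℝ) : ℂ) + y * I) := fun y =>
    mellin_expDefect (by simp; norm_num) (by simp)
  refine (integrable_inv_one_add_sq.const_mul C).mono' ?_ ?_
  · refine Continuous.aestronglyMeasurable ?_
    simp only [e]
    exact continuous_iff_continuousAt.2 fun y => ContinuousAt.comp' (g := Complex.Gamma)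
      (differentiableAt_Gamma _ fun m h => by
        have := congrArg Complex.re h
        simp at this
        rcases Nat.eq_zero_or_pos m with rfl | hm
        · norm_num at this
        · linarith [(Nat.one_le_cast.2 hm : (1 : ℝ) ≤ m)]).continuousAt (by fun_prop)
  · exact Eventually.of_forall fun y => by rw [e y]; exact hC y

/-- **Mellin inversion** on `re s = -1/2`. -/
theorem integral_Gamma_line {x : ℝ} (hx : 0 < x) :
    ∫ y : ℝ, (x : ℂ) ^ (-(((-(1 / 2) : ℝ) : ℂ) + y * I)) *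
        Complex.Gamma (((-(1 / 2) : ℝ) : ℂ) + y * I) =
      2 * π * expDefect x := by
  have h := mellinInv_mellin_eq (-(1 / 2)) expDefect hx
    (mellinConvergent_expDefect (by simp; norm_num) (by simp))
    verticalIntegrable_mellin
    (Complex.continuous_ofReal.comp (by fun_prop)).continuousAt
  rw [mellinInv, Complex.real_smul] at h
  rw [← h]
  have hπ : (π : ℂ) ≠ 0 := ofReal_ne_zero.2 Real.pi_ne_zero
  have e : ∀ y : ℝ, mellin expDefect (((-(1 / 2) : ℝ) : ℂ) + y * I) =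
      Complex.Gamma (((-(1 / 2) : ℝ) : ℂ) + y * I) := fun y =>
    mellin_expDefect (by simp; norm_num) (by simp)
  simp only [smul_eq_mul, e, ofReal_div, ofReal_mul, ofReal_one, ofReal_ofNat]
  rw [← mul_assoc, mul_one_div_cancel (mul_ne_zero two_ne_zero hπ), one_mul]

end FA.MoebiusTheta

end
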