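import Fermat.Agent.MoebiusTheta.Kernel
import Fermat.Agent.MertensOmega.Horizontal

/-!
# `Γ ((1 - w) / 2) b ^ w / ζ w` on the two lines and across the strip

On `re w = 2` the integral is `4 π b ∑ μ n / n (e^(-(b/n)²) - 1)`. The functional equation carries
`w` to `1 - w` and `b` to `π / b`. On heights away from the ordinates the horizontal sides tend
to `0`.
-/

set_option autoImplicit false

noncomputable section

namespace FA.MoebiusTheta

open Complex MeasureTheory Filter Topology Set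
open FA.MertensOmega FA.RiemannMangoldt FA.ZeroFree
open FA.VonKoch (invZeta invZeta_eq moebius_series differentiableAt_invZeta)
open scoped Real ArithmeticFunction.Moebius

/-- `Γ ((1 - w) / 2) b ^ w / ζ w`, continued through `w = 1`. -/
def thetaKer (b : ℝ) (w : ℂ) : ℂ :=
  -2 * Complex.Gamma ((3 - w) / 2) * (b : ℂ) ^ w / riemannZeta₁ w

/-- `∑ μ n / n (e^(-(a/n)²) - 1)`. -/
def thetaTerm (a : ℝ) (n : ℕ) : ℝ := (μ n : ℝ) / n * (Real.exp (-(a / n) ^ 2) - 1)

/-- The series. -/
def thetaSum (a : ℝ) : ℝ := ∑' n : ℕ, thetaTerm a n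

variable {a b : ℝ}

theorem summable_thetaTerm (a : ℝ) : Summable (thetaTerm a) := by
  refine Summable.of_norm_bounded
    ((Real.summable_one_div_nat_pow.2 one_lt_two).mul_left (a ^ 2)) fun n => ?_
  rcases Nat.eq_zero_or_pos n with rfl | hn
  · simp [thetaTerm]
  have hn1 : (1 : ℝ) ≤ n := Nat.one_le_cast.2 hn
  have hμ : |(μ n : ℝ)| ≤ 1 := by exact_mod_cast ArithmeticFunction.abs_moebius_le_one
  have he : |Real.exp (-(a / n) ^ 2) - 1| ≤ (a / n) ^ 2 := by
    rw [abs_of_nonpos (by linarith [Real.exp_le_one_iff.2 (neg_nonpos.2 (sq_nonneg (a / n)))])]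
    linarith [Real.add_one_le_exp (-(a / n) ^ 2)]
  rw [thetaTerm, Real.norm_eq_abs, abs_mul, abs_div, Nat.abs_cast]
  refine (mul_le_mul ((div_le_self (abs_nonneg _) hn1).trans hμ) he (abs_nonneg _)
    zero_le_one).trans (le_of_eq ?_)
  rw [div_pow]
  ring

theorem thetaKer_eq {w : ℂ} (hw : w ≠ 1) :
    thetaKer b w = Complex.Gamma ((1 - w) / 2) * (b : ℂ) ^ w * invZeta w := by
  have h : (1 - w) / 2 ≠ 0 := div_ne_zero (sub_ne_zero.2 hw.symm) two_ne_zero
  rw [thetaKer, invZeta, show (3 - w) / 2 = (1 - w) / 2 + 1 by ring, Complex.Gamma_add_one _ h]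
  ring

theorem exp_log_mul {x : ℝ} (hx : 0 < x) (z : ℂ) : (x : ℂ) ^ z = exp ((Real.log x : ℂ) * z) := by
  rw [cpow_def_of_ne_zero (ofReal_ne_zero.2 hx.ne'), ← ofReal_log hx.le]

/-- **The functional equation of the kernel.** -/
theorem thetaKer_one_sub (ha : 0 < a) (hb : 0 < b) (hab : a * b = π) {v : ℂ} (hv0 : v ≠ 0)
    (hv1 : v ≠ 1) : thetaKer b (1 - v) = ((b / √π : ℝ) : ℂ) * thetaKer a v := by
  have h1 : 1 - v ≠ 0 := sub_ne_zero.2 hv1.symm
  rw [thetaKer_eq (by simpa using hv0), thetaKer_eq hv1, invZeta_eq (by simpa using hv0),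
    invZeta_eq hv1, riemannZeta_def_of_ne_zero h1, riemannZeta_def_of_ne_zero hv0,
    completedRiemannZeta_one_sub, inv_div, inv_div, Gammaℝ_def, Gammaℝ_def, sub_sub_cancel]
  have hfac : (b : ℂ) ^ (1 - v) * (π : ℂ) ^ (-(1 - v) / 2) =
      ((b / √π : ℝ) : ℂ) * ((a : ℂ) ^ v * (π : ℂ) ^ (-v / 2)) := by
    have hlog : Real.log π = Real.log a + Real.log b := by
      rw [← hab, Real.log_mul ha.ne' hb.ne']
    have hc : b / √π = Real.exp (Real.log b - Real.log π / 2) := by
      rw [Real.exp_sub, Real.exp_log hb, ← Real.log_sqrt Real.pi_pos.le,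
        Real.exp_log (Real.sqrt_pos.2 Real.pi_pos)]
    rw [hc, ofReal_exp, exp_log_mul hb, exp_log_mul ha, exp_log_mul Real.pi_pos,
      exp_log_mul Real.pi_pos, ← exp_add, ← exp_add, ← exp_add, hlog]
    congr 1
    push_cast
    ring
  calc Complex.Gamma (v / 2) * (b : ℂ) ^ (1 - v) *
        ((π : ℂ) ^ (-(1 - v) / 2) * Complex.Gamma ((1 - v) / 2) / completedRiemannZeta v)
      = (b : ℂ) ^ (1 - v) * (π : ℂ) ^ (-(1 - v) / 2) *
          (Complex.Gamma (v / 2) * Complex.Gamma ((1 - v) / 2) / completedRiemannZeta v) := by ring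
    _ = _ := by rw [hfac]; ring

theorem differentiableAt_thetaKer (hb : 0 < b) {w : ℂ} (hw : w.re < 3)
    (h : riemannZeta₁ w ≠ 0) : DifferentiableAt ℂ (thetaKer b) w := by
  have hG : DifferentiableAt ℂ (fun w => Complex.Gamma ((3 - w) / 2)) w :=
    (differentiableAt_Gamma _ fun m hm => by
      have := congrArg Complex.re hm
      simp at this
      linarith [(Nat.cast_nonneg m : (0 : ℝ) ≤ m)]).comp w
      (f := fun w : ℂ => (3 - w) / 2) (by fun_prop)
  exact (((differentiableAt_const (-2)).mul hG).mul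
    (differentiableAt_id.const_cpow (Or.inl (ofReal_ne_zero.2 hb.ne')))).div
      (differentiable_riemannZeta₁ w) h

theorem continuous_thetaKer_two (hb : 0 < b) :
    Continuous fun t : ℝ => thetaKer b ((2 : ℂ) + t * I) :=
  continuous_iff_continuousAt.2 fun t => ContinuousAt.comp' (g := thetaKer b)
    (differentiableAt_thetaKer hb (by norm_num)
      fun h => by
        have := (xiFn_zero_strip (xiFn_of_zeta₁_zero (by norm_num) h)).2
        norm_num at this).continuousAt (by fun_prop)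

/-- The `n`th term on `re w = 2`. -/
def lineTerm (b : ℝ) (n : ℕ) (t : ℝ) : ℂ :=
  Complex.Gamma (((-(1 / 2) : ℝ) : ℂ) + ((-(1 / 2) * t : ℝ) : ℂ) * I) *
    ((b : ℂ) ^ ((2 : ℂ) + t * I) * LSeries.term (fun k => (μ k : ℂ)) ((2 : ℂ) + t * I) n)

theorem hasSum_lineTerm (t : ℝ) :
    HasSum (fun n => lineTerm b n t) (thetaKer b ((2 : ℂ) + t * I)) := by
  obtain ⟨hs, he⟩ := moebius_series (s := (2 : ℂ) + t * I) (by simp)
  have h1 : (2 : ℂ) + t * I ≠ 1 := fun h => by
    have := congrArg Complex.re h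
    simp at this
  rw [thetaKer_eq h1, mul_assoc, ← he, show (1 - ((2 : ℂ) + t * I)) / 2 =
    ((-(1 / 2) : ℝ) : ℂ) + ((-(1 / 2) * t : ℝ) : ℂ) * I by push_cast; ring]
  exact (hs.hasSum.mul_left _).mul_left _

theorem exists_norm_lineTerm_le : ∃ C, 0 ≤ C ∧ ∀ b : ℝ, 0 < b → ∀ (n : ℕ) (t : ℝ),
    ‖lineTerm b n t‖ ≤ b ^ 2 * (1 / (n : ℝ) ^ 2) * (C * (1 + (-(1 / 2) * t) ^ 2)⁻¹) := by
  obtain ⟨C, hC, h⟩ := exists_norm_Gamma_line_le
  refine ⟨C, hC, fun b hb n t => ?_⟩
  rw [lineTerm, norm_mul, mul_comm]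
  refine mul_le_mul ?_ (h _) (norm_nonneg _) (by positivity)
  rw [norm_mul, norm_cpow_eq_rpow_re_of_pos hb, LSeries.norm_term_eq]
  have hre : ((2 : ℂ) + t * I).re = 2 := by simp
  rw [hre, Real.rpow_two, Real.rpow_two]
  refine mul_le_mul_of_nonneg_left ?_ (sq_nonneg b)
  split_ifs with hn
  · positivity
  · refine div_le_div_of_nonneg_right ?_ (sq_nonneg _)
    rw [Complex.norm_intCast]
    exact_mod_cast ArithmeticFunction.abs_moebius_le_one

theorem integrable_line_bound : Integrable fun t : ℝ => (1 + (-(1 / 2) * t) ^ 2)⁻¹ :=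
  integrable_inv_one_add_sq.comp_mul_left' (by norm_num)

theorem integrable_lineTerm (hb : 0 < b) (n : ℕ) : Integrable (lineTerm b n) := by
  obtain ⟨C, -, h⟩ := exists_norm_lineTerm_le
  refine ((integrable_line_bound.const_mul C).const_mul (b ^ 2 * (1 / (n : ℝ) ^ 2))).mono'
    (Continuous.aestronglyMeasurable ?_) (Eventually.of_forall fun t => h b hb n t)
  refine Continuous.mul (continuous_iff_continuousAt.2 fun t => ContinuousAt.comp'
    (g := Complex.Gamma) (differentiableAt_Gamma _ fun m hm => ?_).continuousAt (by fun_prop))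
    (Continuous.mul ?_ ?_)
  · have := congrArg Complex.re hm
    simp at this
    rcases Nat.eq_zero_or_pos m with rfl | hm'
    · norm_num at this
    · linarith [(Nat.one_le_cast.2 hm' : (1 : ℝ) ≤ m)]
  · exact Continuous.const_cpow (by fun_prop) (Or.inl (ofReal_ne_zero.2 hb.ne'))
  · rcases Nat.eq_zero_or_pos n with rfl | hn
    · simpa using continuous_const
    · simp only [LSeries.term_of_ne_zero hn.ne']
      exact continuous_const.div
        (Continuous.const_cpow (by fun_prop) (Or.inl (Nat.cast_ne_zero.2 hn.ne')))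
        fun t => by simp [cpow_eq_zero_iff, hn.ne']

theorem integral_lineTerm (hb : 0 < b) (n : ℕ) :
    ∫ t : ℝ, lineTerm b n t = ((4 * π * b * thetaTerm b n : ℝ) : ℂ) := by
  rcases Nat.eq_zero_or_pos n with rfl | hn
  · simp [lineTerm, thetaTerm]
  have hn0 : (0 : ℝ) < n := Nat.cast_pos.2 hn
  have hx : 0 < (b / n) ^ 2 := by positivity
  obtain ⟨h, hh⟩ : ∃ h : ℝ → ℂ, h = fun y : ℝ =>
      ((((b / n) ^ 2 : ℝ) : ℂ) ^ (-(((-(1 / 2) : ℝ) : ℂ) + y * I))) *
        Complex.Gamma (((-(1 / 2) : ℝ) : ℂ) + y * I) := ⟨_, rfl⟩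
  have e : ∀ t : ℝ, lineTerm b n t = (μ n : ℂ) * ((b / n : ℝ) : ℂ) * h (-(1 / 2) * t) := by
    intro t
    rw [lineTerm, LSeries.term_of_ne_zero hn.ne', hh]
    simp only
    have hpow : (b : ℂ) ^ ((2 : ℂ) + t * I) / (n : ℂ) ^ ((2 : ℂ) + t * I) =
        ((b / n : ℝ) : ℂ) * (((b / n) ^ 2 : ℝ) : ℂ) ^
          (-(((-(1 / 2) : ℝ) : ℂ) + ((-(1 / 2) * t : ℝ) : ℂ) * I)) := by
      rw [← ofReal_natCast, exp_log_mul hb, exp_log_mul hn0, ← exp_sub, exp_log_mul hx,
        show ((b / n : ℝ) : ℂ) = exp ((Real.log b : ℂ) - Real.log n) by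
          rw [← ofReal_sub, ← ofReal_exp, Real.exp_sub, Real.exp_log hb, Real.exp_log hn0],
        ← exp_add, Real.log_pow, Real.log_div hb.ne' hn0.ne']
      congr 1
      push_cast
      ring
    calc _ = (μ n : ℂ) * ((b : ℂ) ^ ((2 : ℂ) + t * I) / (n : ℂ) ^ ((2 : ℂ) + t * I)) *
          Complex.Gamma (((-(1 / 2) : ℝ) : ℂ) + ((-(1 / 2) * t : ℝ) : ℂ) * I) := by ring
      _ = _ := by rw [hpow]; push_cast; ring
  simp only [e]
  rw [integral_const_mul, Measure.integral_comp_mul_left, hh, integral_Gamma_line hx,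
    expDefect, thetaTerm, Complex.real_smul, show |(-(1 / 2) : ℝ)⁻¹| = 2 by norm_num]
  push_cast
  ring

/-- **The line `re w = 2`.** -/
theorem integral_thetaKer_two (hb : 0 < b) :
    Integrable (fun t : ℝ => thetaKer b ((2 : ℂ) + t * I)) ∧
      ∫ t : ℝ, thetaKer b ((2 : ℂ) + t * I) = ((4 * π * b * thetaSum b : ℝ) : ℂ) := by
  obtain ⟨C, hC, h⟩ := exists_norm_lineTerm_le
  have hsum : Summable fun n : ℕ => b ^ 2 * (1 / (n : ℝ) ^ 2) :=
    (Real.summable_one_div_nat_pow.2 one_lt_two).mul_left _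
  constructor
  · refine ((integrable_line_bound.const_mul C).const_mul
      (∑' n : ℕ, b ^ 2 * (1 / (n : ℝ) ^ 2))).mono' (continuous_thetaKer_two hb).aestronglyMeasurable
      (Eventually.of_forall fun t => ?_)
    rw [← (hasSum_lineTerm t).tsum_eq, ← tsum_mul_right]
    exact tsum_of_norm_bounded (hsum.mul_right _).hasSum fun n => h b hb n t
  · simp only [← (hasSum_lineTerm (b := b) _).tsum_eq]
    rw [← integral_tsum_of_summable_integral_norm (integrable_lineTerm hb) ?_]
    · simp only [integral_lineTerm hb, thetaSum]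
      rw [← ofReal_tsum, tsum_mul_left]
    · refine Summable.of_nonneg_of_le (fun n => integral_nonneg fun t => norm_nonneg _)
        (fun n => integral_mono (integrable_lineTerm hb n).norm
          ((integrable_line_bound.const_mul C).const_mul _) fun t => h b hb n t) ?_
      simp only [integral_const_mul]
      exact hsum.mul_right _

/-- **The line `re w = -1`.** -/
theorem integral_thetaKer_neg_one (ha : 0 < a) (hb : 0 < b) (hab : a * b = π) :
    Integrable (fun t : ℝ => thetaKer b ((-1 : ℂ) + t * I)) ∧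
      ∫ t : ℝ, thetaKer b ((-1 : ℂ) + t * I) =
        ((b / √π * (4 * π * a * thetaSum a) : ℝ) : ℂ) := by
  obtain ⟨hi, he⟩ := integral_thetaKer_two ha
  have e : (fun t : ℝ => thetaKer b ((-1 : ℂ) + t * I)) =
      fun t : ℝ => ((b / √π : ℝ) : ℂ) * thetaKer a ((2 : ℂ) + ((-t : ℝ) : ℂ) * I) := by
    funext t
    rw [show (-1 : ℂ) + t * I = 1 - ((2 : ℂ) + ((-t : ℝ) : ℂ) * I) by push_cast; ring]
    refine thetaKer_one_sub ha hb hab (fun h => ?_) fun h => ?_ <;>
      · have := congrArg Complex.re h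
        simp at this
  refine ⟨by rw [e]; exact hi.comp_neg.const_mul _, ?_⟩
  rw [e, integral_const_mul,
    integral_neg_eq_self (fun t : ℝ => thetaKer a ((2 : ℂ) + (t : ℂ) * I)) volume, he]
  push_cast
  rfl

/-- The horizontal sides. -/
theorem exists_thetaKer_heights : ∃ T : ℕ → ℝ, (∀ m : ℕ, (m : ℝ) + 3 ≤ T m) ∧
    (∀ m ρ, xiFn ρ = 0 → |ρ.im| ≠ T m) ∧
    ∀ a b : ℝ, 0 < a → 0 < b → a * b = π → ∃ δ : ℕ → ℝ, Tendsto δ atTop (𝓝 0) ∧
      ∀ (m : ℕ) (u t : ℝ), -1 ≤ u → u ≤ 2 → |t| = T m →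
        ‖thetaKer b ((u : ℂ) + t * I)‖ ≤ δ m := by
  obtain ⟨T, A, hA, hlow, hord, hz⟩ := exists_heights_log
  obtain ⟨C, hC, hΓ⟩ := exists_norm_Gamma_le
  refine ⟨T, hlow, hord, fun a b ha hb hab => ?_⟩
  obtain ⟨P, hP⟩ : ∃ P : ℝ → ℝ, P = fun c => max c 1 ^ 2 * (2 * C * A) := ⟨_, rfl⟩
  obtain ⟨Q, hQ⟩ : ∃ Q : ℕ → ℝ,
      Q = fun m => Real.exp (A * ell (T m) ^ 2 - π / 4 * T m) := ⟨_, rfl⟩
  refine ⟨fun m => (P b + b / √π * P a) * Q m, ?_, ?_⟩
  · have hT : Tendsto T atTop atTop := tendsto_atTop_mono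
      (fun m => le_trans (le_add_of_nonneg_right (by norm_num)) (hlow m))
      tendsto_natCast_atTop_atTop
    have ho := (Real.isLittleO_pow_log_id_atTop (n := 2)).def
      (show (0 : ℝ) < π / 16 / A by positivity)
    have hexp : Tendsto (fun X : ℝ => A * ell X ^ 2 - π / 4 * X) atTop atBot := by
      refine tendsto_atBot_mono' atTop ?_
        (tendsto_neg_atTop_atBot.comp
          (tendsto_id.const_mul_atTop (show (0 : ℝ) < π / 8 by positivity)))
      filter_upwards [(tendsto_atTop_add_const_right atTop 100 tendsto_id).eventually ho,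
        eventually_ge_atTop (100 : ℝ)] with X hX hX1
      simp only [id, Function.comp_apply, Real.norm_eq_abs] at hX ⊢
      have h1 : ell X ^ 2 ≤ π / 16 / A * (2 * X) := by
        rw [ell, abs_of_nonneg (by linarith : 0 ≤ X)]
        refine (le_abs_self _).trans (hX.trans (mul_le_mul_of_nonneg_left ?_ (by positivity)))
        rw [abs_of_nonneg (by linarith)]
        linarith
      have h2 := mul_le_mul_of_nonneg_left h1 (show (0 : ℝ) ≤ A by linarith)
      rw [show A * (π / 16 / A * (2 * X)) = π / 8 * X by field_simp; ring] at h2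
      nlinarith [Real.pi_pos]
    simpa [hQ, Function.comp_def] using
      ((Real.tendsto_exp_atBot.comp (hexp.comp hT)).const_mul (P b + b / √π * P a))
  · intro m u t hu hu2 ht
    have hT3 : 3 ≤ T m := le_trans (by linarith [(Nat.cast_nonneg m : (0 : ℝ) ≤ m)]) (hlow m)
    have half : ∀ c : ℝ, 0 < c → ∀ v s : ℝ, 1 / 2 ≤ v → v ≤ 2 → |s| = T m →
        ‖thetaKer c ((v : ℂ) + s * I)‖ ≤ P c * Q m := by
      intro c hc v s hv hv2 hs
      have hs0 : s ≠ 0 := fun h => by rw [h, abs_zero] at hs; linarith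
      obtain ⟨y, hy⟩ : ∃ y, y = -s / 2 := ⟨_, rfl⟩
      have hy1 : |y| = T m / 2 := by rw [hy, abs_div, abs_neg, hs, abs_two]
      have hne : (((1 - v) / 2 : ℝ) : ℂ) + y * I ≠ 0 := fun h => by
        have := congrArg Complex.im h
        simp [hy, hs0] at this
      have hG : ‖Complex.Gamma ((1 - ((v : ℂ) + s * I)) / 2)‖ ≤
          2 * C * Real.exp (-(π / 4 * T m)) := by
        rw [show (1 - ((v : ℂ) + s * I)) / 2 = (((1 - v) / 2 : ℝ) : ℂ) + y * I by
          rw [hy]; push_cast; ring]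
        refine (hΓ _ y (by linarith) (by linarith) hne).trans ?_
        have hn : T m / 2 ≤ ‖(((1 - v) / 2 : ℝ) : ℂ) + y * I‖ := by
          rw [← hy1]
          simpa using abs_im_le_norm ((((1 - v) / 2 : ℝ) : ℂ) + y * I)
        rw [hy1, show π * (T m / 2) / 2 = π / 4 * T m by ring,
          div_le_iff₀ (norm_pos_iff.2 hne)]
        calc C * (1 + T m / 2) * Real.exp (-(π / 4 * T m))
            ≤ C * (2 * (T m / 2)) * Real.exp (-(π / 4 * T m)) := by gcongr; linarith
          _ ≤ C * (2 * ‖(((1 - v) / 2 : ℝ) : ℂ) + y * I‖) * Real.exp (-(π / 4 * T m)) := by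
              gcongr
          _ = _ := by ring
      have hpow : ‖(c : ℂ) ^ ((v : ℂ) + s * I)‖ ≤ max c 1 ^ 2 := by
        rw [norm_cpow_eq_rpow_re_of_pos hc, show ((v : ℂ) + s * I).re = v by simp,
          ← Real.rpow_two]
        exact (Real.rpow_le_rpow hc.le (le_max_left _ _) (by linarith)).trans
          (Real.rpow_le_rpow_of_exponent_le (le_max_right _ _) hv2)
      rw [thetaKer_eq (fun h => hs0 (by simpa using congrArg Complex.im h)), norm_mul, norm_mul]
      refine (mul_le_mul (mul_le_mul hG hpow (norm_nonneg _) (by positivity))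
        (hz m v s hv hv2 hs) (norm_nonneg _) (by positivity)).trans (le_of_eq ?_)
      simp only [hP, hQ]
      rw [sub_eq_add_neg, Real.exp_add]
      ring
    have hP0 : ∀ c, 0 ≤ P c := fun c => by
      simp only [hP]
      exact mul_nonneg (sq_nonneg _) (by positivity)
    have hQ0 : 0 ≤ Q m := by simp only [hQ]; exact (Real.exp_pos _).le
    have hk : 0 ≤ b / √π := by positivity
    rcases le_or_gt (1 / 2) u with hr | hl
    · refine (half b hb u t hr hu2 ht).trans (mul_le_mul_of_nonneg_right ?_ hQ0)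
      exact le_add_of_nonneg_right (mul_nonneg hk (hP0 a))
    · have ht0 : t ≠ 0 := fun h => by rw [h, abs_zero] at ht; linarith
      rw [show (u : ℂ) + t * I = 1 - (((1 - u : ℝ) : ℂ) + ((-t : ℝ) : ℂ) * I) by push_cast; ring,
        thetaKer_one_sub ha hb hab (fun h => ht0 (by simpa using congrArg Complex.im h))
          (fun h => ht0 (by simpa using congrArg Complex.im h)),
        norm_mul, norm_real, Real.norm_of_nonneg hk]
      calc b / √π * ‖thetaKer a (((1 - u : ℝ) : ℂ) + ((-t : ℝ) : ℂ) * I)‖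
          ≤ b / √π * (P a * Q m) := mul_le_mul_of_nonneg_left
            (half a ha _ _ (by linarith) (by linarith) (by rw [abs_neg, ht])) hk
        _ ≤ _ := by
            rw [← mul_assoc]
            exact mul_le_mul_of_nonneg_right (le_add_of_nonneg_left (hP0 b)) hQ0

end FA.MoebiusTheta

end
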