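import Fermat.Agent.MoebiusTheta.Lines
import Fermat.Agent.MertensOmega.Contour

/-!
# The Ramanujan-Hardy-Littlewood formula

The rectangle `[-1, 2] × [-T, T]` for `Γ ((1 - w) / 2) b ^ w / ζ w`, all zeros simple, with
`T → ∞` away from the ordinates.
-/

set_option autoImplicit false

noncomputable section

namespace FA.MoebiusTheta

open Complex MeasureTheory Filter Topology Set
open FA.MertensOmega FA.RiemannMangoldt FA.ExplicitFormula
open scoped Real ArithmeticFunction.Moebius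

/-- The residue at a simple zero. -/
def thetaRes (b : ℝ) (ρ : ℂ) : ℂ :=
  Complex.Gamma ((1 - ρ) / 2) * (b : ℂ) ^ ρ / deriv riemannZeta ρ

variable {a b : ℝ}

theorem boxInt_thetaKer (hb : 0 < b) (hs : ∀ ρ : ℂ, xiFn ρ = 0 → deriv riemannZeta ρ ≠ 0)
    {T : ℝ} (hT : 0 < T) (hord : ∀ ρ, xiFn ρ = 0 → |ρ.im| ≠ T) :
    boxInt (thetaKer b) (-1) 2 T = 2 * π * I * ∑ ρ ∈ zerosUpTo T, thetaRes b ρ := by
  refine boxInt_simple_poles (by norm_num) hT.le _ (fun ρ hρ => ?_) (fun s h1 h2 h3 => ?_)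
    fun ρ hρ => ?_
  · rw [mem_zerosUpTo] at hρ
    obtain ⟨l, r⟩ := xiFn_zero_strip hρ.1
    exact ⟨by linarith, by linarith, lt_of_le_of_ne hρ.2 (hord ρ hρ.1)⟩
  · refine differentiableAt_thetaKer hb (by linarith [h1.2]) fun h => h3 ?_
    exact mem_zerosUpTo.2 ⟨xiFn_of_zeta₁_zero (by linarith [h1.1]) h, abs_le.2 h2⟩
  · rw [mem_zerosUpTo] at hρ
    obtain ⟨l, r⟩ := xiFn_zero_strip hρ.1
    have hρ1 : ρ ≠ 1 := fun h => by rw [h] at r; simp at r
    have hz := (xiFn_eq_zero_iff l hρ1).1 hρ.1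
    have h1 : riemannZeta₁ ρ = 0 := FA.PsiOscillation.riemannZeta₁_eq_zero hz hρ1
    obtain ⟨D, hD⟩ : ∃ D, D = dslope riemannZeta₁ ρ := ⟨_, rfl⟩
    have hDρ : D ρ = (ρ - 1) * deriv riemannZeta ρ := by
      rw [hD, dslope_same, deriv_zeta₁_zero hρ1 hz]
    have hD0 : D ρ ≠ 0 := hDρ ▸ mul_ne_zero (sub_ne_zero.2 hρ1) (hs ρ hρ.1)
    have hDd : Differentiable ℂ D := differentiableOn_univ.1 (hD ▸
      (differentiableOn_dslope univ_mem).2 differentiable_riemannZeta₁.differentiableOn)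
    have hN : AnalyticAt ℂ
        (fun s : ℂ => -2 * Complex.Gamma ((3 - s) / 2) * (b : ℂ) ^ s) ρ := by
      refine analyticAt_iff_eventually_differentiableAt.2 ?_
      filter_upwards [(isOpen_lt continuous_re continuous_const).mem_nhds
        (show ρ.re < (3 : ℝ) by linarith)] with s (hs3 : s.re < 3)
      exact ((differentiableAt_const (-2)).mul ((differentiableAt_Gamma _ fun m hm => by
        have := congrArg Complex.re hm
        simp at this
        linarith [(Nat.cast_nonneg m : (0 : ℝ) ≤ m)]).comp s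
        (f := fun w : ℂ => (3 - w) / 2) (by fun_prop))).mul
        (differentiableAt_id.const_cpow (Or.inl (ofReal_ne_zero.2 hb.ne')))
    refine ⟨fun s => -2 * Complex.Gamma ((3 - s) / 2) * (b : ℂ) ^ s / D s,
      hN.div (hDd.analyticAt ρ) hD0, ?_, ?_⟩
    · simp only [hDρ, thetaRes]
      have hne : (1 - ρ) / 2 ≠ 0 := div_ne_zero (sub_ne_zero.2 hρ1.symm) two_ne_zero
      rw [show (3 - ρ) / 2 = (1 - ρ) / 2 + 1 by ring, Complex.Gamma_add_one _ hne]
      have := sub_ne_zero.2 hρ1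
      field_simp
      ring
    · filter_upwards [self_mem_nhdsWithin] with s (hne : s ≠ ρ)
      rw [thetaKer, hD, dslope_of_ne _ hne, slope, vsub_eq_sub, smul_eq_mul, h1, sub_zero]
      have := sub_ne_zero.2 hne
      field_simp

/-- **The Ramanujan-Hardy-Littlewood formula.** -/
theorem exists_formula : ∃ T : ℕ → ℝ, (∀ m : ℕ, (m : ℝ) + 3 ≤ T m) ∧
    (∀ m ρ, xiFn ρ = 0 → |ρ.im| ≠ T m) ∧
    ((∀ ρ : ℂ, xiFn ρ = 0 → deriv riemannZeta ρ ≠ 0) → ∀ a b : ℝ, 0 < a → 0 < b → a * b = π →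
      Tendsto (fun m => ∑ ρ ∈ zerosUpTo (T m), thetaRes b ρ) atTop
        (𝓝 ((2 * √b * (√b * thetaSum b - √a * thetaSum a) : ℝ) : ℂ))) := by
  obtain ⟨T, hlow, hord, hside⟩ := exists_thetaKer_heights
  refine ⟨T, hlow, hord, fun hs a b ha hb hab => ?_⟩
  obtain ⟨δ, hδ, hH⟩ := hside a b ha hb hab
  obtain ⟨hiR, hR⟩ := integral_thetaKer_two hb
  obtain ⟨hiL, hL⟩ := integral_thetaKer_neg_one ha hb hab
  have hTtop : Tendsto T atTop atTop := tendsto_atTop_mono
    (fun m => le_trans (le_add_of_nonneg_right (by norm_num)) (hlow m))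
    tendsto_natCast_atTop_atTop
  have hT0 : ∀ m, 0 < T m := fun m => by linarith [hlow m, (Nat.cast_nonneg m : (0 : ℝ) ≤ m)]
  have hzero : ∀ e : ℝ, |e| = 1 → Tendsto (fun m => ∫ u in (-1 : ℝ)..2,
      thetaKer b ((u : ℂ) + ((e * T m : ℝ) : ℂ) * I)) atTop (𝓝 0) := by
    intro e he
    refine squeeze_zero_norm (fun m => ?_) (by simpa using hδ.const_mul (3 : ℝ))
    refine (intervalIntegral.norm_integral_le_of_norm_le_const (C := δ m) fun u hu => ?_).trans
      (le_of_eq (by rw [show |(2 : ℝ) - -1| = 3 by norm_num]; ring))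
    rw [uIoc_of_le (by norm_num)] at hu
    exact hH m u _ hu.1.le hu.2 (by rw [abs_mul, he, one_mul, abs_of_pos (hT0 m)])
  have hvert : ∀ {f : ℝ → ℂ}, Integrable f →
      Tendsto (fun m => ∫ t in (-T m)..T m, f t) atTop (𝓝 (∫ t, f t)) := fun hf =>
    intervalIntegral_tendsto_integral hf (tendsto_neg_atTop_atBot.comp hTtop) hTtop
  have hlim : Tendsto (fun m => boxInt (thetaKer b) (-1) 2 (T m)) atTop
      (𝓝 (0 - 0 + I * ((4 * π * b * thetaSum b : ℝ) : ℂ) -
        I * ((b / √π * (4 * π * a * thetaSum a) : ℝ) : ℂ))) := by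
    refine ((Tendsto.sub ?_ ?_).add (Tendsto.const_mul I ?_)).sub (Tendsto.const_mul I ?_)
    · simpa using hzero (-1) (by norm_num)
    · simpa using hzero 1 abs_one
    · rw [← hR]
      exact (hvert hiR).congr fun m => by norm_num
    · rw [← hL]
      exact (hvert hiL).congr fun m => by norm_num
  simp only [boxInt_thetaKer hb hs (hT0 _) (hord _)] at hlim
  have h2 : (2 * π * I : ℂ) ≠ 0 :=
    mul_ne_zero (mul_ne_zero two_ne_zero (ofReal_ne_zero.2 Real.pi_ne_zero)) I_ne_zero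
  have h3 := hlim.div_const (2 * π * I)
  simp only [mul_div_cancel_left₀ _ h2] at h3
  convert h3 using 2
  have hab' : b / √π * a = √a * √b := by
    rw [← Real.sqrt_mul ha.le, hab]
    field_simp
    rw [Real.sq_sqrt Real.pi_pos.le, mul_comm, hab]
  have hbb : √b * √b = b := Real.mul_self_sqrt hb.le
  rw [eq_div_iff h2, show b / √π * (4 * π * a * thetaSum a) = 4 * π * (b / √π * a) * thetaSum a by
    ring, hab']
  have hbb' : ((√b : ℝ) : ℂ) * ((√b : ℝ) : ℂ) = (b : ℂ) := by exact_mod_cast hbb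
  push_cast
  linear_combination (4 * (π : ℂ) * I * (thetaSum b : ℂ)) * hbb'

/-- With absolute convergence no bracketing is needed. -/
theorem tsum_formula (hs : ∀ ρ : ℂ, xiFn ρ = 0 → deriv riemannZeta ρ ≠ 0) (ha : 0 < a)
    (hb : 0 < b) (hab : a * b = π)
    (hsum : Summable fun ρ : {ρ : ℂ // xiFn ρ = 0} => thetaRes b ρ) :
    ∑' ρ : {ρ : ℂ // xiFn ρ = 0}, thetaRes b ρ =
      ((2 * √b * (√b * thetaSum b - √a * thetaSum a) : ℝ) : ℂ) := by
  classical
  obtain ⟨T, hlow, -, h⟩ := exists_formula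
  have hatTop : Tendsto (fun m => (zerosUpTo (T m)).subtype fun ρ => xiFn ρ = 0) atTop atTop := by
    refine tendsto_atTop.2 fun S => ?_
    have hT : Tendsto T atTop atTop := tendsto_atTop_mono
      (fun m => le_trans (le_add_of_nonneg_right (by norm_num)) (hlow m))
      tendsto_natCast_atTop_atTop
    filter_upwards [hT.eventually (eventually_ge_atTop (∑ ρ ∈ S, |(ρ : ℂ).im|))] with m hm
    intro ρ hρ
    rw [Finset.mem_subtype, mem_zerosUpTo]
    exact ⟨ρ.2, le_trans (Finset.single_le_sum (f := fun ρ : {ρ : ℂ // xiFn ρ = 0} => |(ρ : ℂ).im|)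
      (fun i _ => abs_nonneg _) hρ) hm⟩
  refine tendsto_nhds_unique ((hsum.hasSum.comp hatTop).congr fun m => ?_) (h hs a b ha hb hab)
  exact Finset.sum_subtype_of_mem (fun ρ => thetaRes b ρ) fun ρ hρ => (mem_zerosUpTo.1 hρ).1

end FA.MoebiusTheta

end
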